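import Mathlib

/-!
# S55 / REC2 / STEP A (helper815), part 3: the arithmetic of `ℚˣ → (ℤ/ℓ^e)ˣ`

For `y ∈ ℚˣ` the prime-to-`ℓ` part of `|y|` is `∏_{q ≠ ℓ} q ^ {v_q(y)}`; if `y` is `ℓ`-adically
close to `s ℓ^k t` (`s = ±1`, `ℓ ∤ t`) then this product is `± t` in `(ℤ/ℓ^e)ˣ`.
-/

set_option autoImplicit false

namespace Fermat.Agent.S55.G.Rec.H815

section NatPart

variable {m : ℕ} (ℓ : ℕ) (u : ℕ → (ZMod m)ˣ)

/-- The prime-to-`ℓ` part of `N` as a product of the units `u q`. -/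
noncomputable def unitPart815 (N : ℕ) : (ZMod m)ˣ :=
  ∏ p ∈ (ordCompl[ℓ] N).primeFactors, u p ^ N.factorization p

lemma factorization_ordCompl_of_ne815 {N p : ℕ} (hp : p ≠ ℓ) :
    (ordCompl[ℓ] N).factorization p = N.factorization p := by
  rw [Nat.factorization_ordCompl, Finsupp.erase_ne hp]

lemma ne_of_mem_primeFactors_ordCompl815 (hℓ : ℓ.Prime) {N p : ℕ} (hN : N ≠ 0)
    (hp : p ∈ (ordCompl[ℓ] N).primeFactors) : p ≠ ℓ := by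
  rintro rfl
  exact Nat.not_dvd_ordCompl hℓ hN (Nat.dvd_of_mem_primeFactors hp)

lemma unitPart815_val (hℓ : ℓ.Prime)
    (hu : ∀ q : ℕ, q.Prime → q ≠ ℓ → ((u q : (ZMod m)ˣ) : ZMod m) = (q : ZMod m))
    {N : ℕ} (hN : N ≠ 0) :
    ((unitPart815 ℓ u N : (ZMod m)ˣ) : ZMod m) = ((ordCompl[ℓ] N : ℕ) : ZMod m) := by
  have hN' : ordCompl[ℓ] N ≠ 0 := (Nat.ordCompl_pos ℓ hN).ne'
  have h1 := Nat.prod_factorization_pow_eq_self hN'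
  conv_rhs => rw [← h1]
  rw [Finsupp.prod, Nat.support_factorization, Nat.cast_prod]
  unfold unitPart815
  rw [Units.coe_prod]
  apply Finset.prod_congr rfl
  intro p hp
  have hpℓ : p ≠ ℓ := ne_of_mem_primeFactors_ordCompl815 ℓ hℓ hN hp
  rw [Units.val_pow_eq_pow_val, hu p (Nat.prime_of_mem_primeFactors hp) hpℓ,
    factorization_ordCompl_of_ne815 ℓ hpℓ, Nat.cast_pow]

lemma prod_eq_unitPart815 (hℓ : ℓ.Prime) {N : ℕ} (hN : N ≠ 0) (S : Finset Nat.Primes)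
    (hS : ∀ q ∈ S, (q : ℕ) ≠ ℓ)
    (hS' : ∀ q : Nat.Primes, (q : ℕ) ≠ ℓ → (q : ℕ) ∣ N → q ∈ S) :
    ∏ q ∈ S, u q ^ padicValNat q N = unitPart815 ℓ u N := by
  classical
  have hinj : Set.InjOn (fun q : Nat.Primes => (q : ℕ)) S := fun a _ b _ h => Subtype.ext h
  have e1 : ∏ q ∈ S, u q ^ padicValNat q N =
      ∏ p ∈ S.image (fun q : Nat.Primes => (q : ℕ)), u p ^ N.factorization p := by
    rw [Finset.prod_image hinj]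
    apply Finset.prod_congr rfl
    intro q _
    rw [Nat.factorization_def N q.2]
  rw [e1]
  unfold unitPart815
  symm
  apply Finset.prod_subset
  · intro p hp
    have hpℓ : p ≠ ℓ := ne_of_mem_primeFactors_ordCompl815 ℓ hℓ hN hp
    have hpp : p.Prime := Nat.prime_of_mem_primeFactors hp
    have hpN : p ∣ N :=
      (Nat.dvd_of_mem_primeFactors hp).trans (Nat.ordCompl_dvd N ℓ)
    exact Finset.mem_image.2 ⟨⟨p, hpp⟩, hS' ⟨p, hpp⟩ hpℓ hpN, rfl⟩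
  · intro p hp hp'
    obtain ⟨q, hq, rfl⟩ := Finset.mem_image.1 hp
    have hqℓ : (q : ℕ) ≠ ℓ := hS q hq
    have h0 : (ordCompl[ℓ] N).factorization (q : ℕ) = 0 := by
      by_contra hne
      apply hp'
      rw [← Nat.support_factorization]
      exact Finsupp.mem_support_iff.2 hne
    rw [factorization_ordCompl_of_ne815 ℓ hqℓ] at h0
    rw [h0, pow_zero]

end NatPart

section RatPart

variable {m : ℕ} (ℓ : ℕ) (u : ℕ → (ZMod m)ˣ)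

lemma padicValRat_eq_sub815 (q : ℕ) (y : ℚ) :
    padicValRat q y = (padicValNat q y.num.natAbs : ℤ) - (padicValNat q y.den : ℤ) := rfl

/-- The product over the primes `≠ ℓ` of `u q ^ v_q(y)` is the quotient of the prime-to-`ℓ`
parts of numerator and denominator. -/
lemma prod_padicValRat815 (hℓ : ℓ.Prime) {y : ℚ} (hy : y ≠ 0) (S : Finset Nat.Primes)
    (hS : ∀ q ∈ S, (q : ℕ) ≠ ℓ)
    (hS' : ∀ q : Nat.Primes, (q : ℕ) ≠ ℓ → padicValRat q y ≠ 0 → q ∈ S) :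
    ∏ q ∈ S, u q ^ padicValRat q y =
      unitPart815 ℓ u y.num.natAbs * (unitPart815 ℓ u y.den)⁻¹ := by
  have hA : y.num.natAbs ≠ 0 := Int.natAbs_ne_zero.2 (Rat.num_ne_zero.2 hy)
  have hD : y.den ≠ 0 := y.den_nz
  have hcop : Nat.Coprime y.num.natAbs y.den := y.reduced
  have hSA : ∀ q : Nat.Primes, (q : ℕ) ≠ ℓ → (q : ℕ) ∣ y.num.natAbs → q ∈ S := by
    intro q hqℓ hq
    apply hS' q hqℓ
    have : Fact (q : ℕ).Prime := ⟨q.2⟩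
    have h1 : ¬ (q : ℕ) ∣ y.den := fun h2 =>
      q.2.one_lt.ne' (Nat.eq_one_of_dvd_coprimes hcop hq h2)
    have h3 : padicValNat q y.den = 0 := padicValNat.eq_zero_of_not_dvd h1
    have h4 : 1 ≤ padicValNat q y.num.natAbs := one_le_padicValNat_of_dvd hA hq
    rw [padicValRat_eq_sub815, h3]
    omega
  have hSD : ∀ q : Nat.Primes, (q : ℕ) ≠ ℓ → (q : ℕ) ∣ y.den → q ∈ S := by
    intro q hqℓ hq
    apply hS' q hqℓ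
    have : Fact (q : ℕ).Prime := ⟨q.2⟩
    have h1 : ¬ (q : ℕ) ∣ y.num.natAbs := fun h2 =>
      q.2.one_lt.ne' (Nat.eq_one_of_dvd_coprimes hcop h2 hq)
    have h3 : padicValNat q y.num.natAbs = 0 := padicValNat.eq_zero_of_not_dvd h1
    have h4 : 1 ≤ padicValNat q y.den := one_le_padicValNat_of_dvd hD hq
    rw [padicValRat_eq_sub815, h3]
    omega
  rw [← prod_eq_unitPart815 ℓ u hℓ hA S hS hSA, ← prod_eq_unitPart815 ℓ u hℓ hD S hS hSD,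
    ← Finset.prod_inv_distrib, ← Finset.prod_mul_distrib]
  apply Finset.prod_congr rfl
  intro q _
  rw [padicValRat_eq_sub815, zpow_sub, zpow_natCast, zpow_natCast]

end RatPart

section PadicPart

variable (ℓ : ℕ) [hℓ : Fact ℓ.Prime]

lemma norm_unitsInt815 (s : ℤˣ) : ‖(((s : ℤ) : ℚ_[ℓ]))‖ = 1 := by
  rcases Int.units_eq_one_or s with h | h <;> simp [h]

lemma norm_natCast_ordCompl815 {N : ℕ} (hN : N ≠ 0) : ‖((ordCompl[ℓ] N : ℕ) : ℚ_[ℓ])‖ = 1 :=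
  Padic.norm_natCast_eq_one_iff.2 (Nat.coprime_ordCompl hℓ.out hN)

/-- The key `ℓ`-adic comparison: if `y = sg · A / D` is close to `s ℓ^k t` then
`sg · A' ≡ s · t · D' (mod ℓ^e)`, `A'`, `D'` the prime-to-`ℓ` parts of `A`, `D`. -/
lemma padic_congr815 (e : ℕ) (he : 0 < e) {A D : ℕ} (hA : A ≠ 0) (hD : D ≠ 0) (sg : ℤˣ) (Y : ℚ_[ℓ])
    (hY : Y * (D : ℚ_[ℓ]) = ((sg : ℤ) : ℚ_[ℓ]) * (A : ℚ_[ℓ]))
    (k : ℤ) (s : ℤˣ) (t : ℕ) (ht : ¬ ℓ ∣ t)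
    (h : ‖Y - ((s : ℤ) : ℚ_[ℓ]) * (ℓ : ℚ_[ℓ]) ^ k * (t : ℚ_[ℓ])‖ ≤ ‖(ℓ : ℚ_[ℓ])‖ ^ (k + e)) :
    ((ℓ ^ e : ℕ) : ℤ) ∣
      (sg : ℤ) * ((ordCompl[ℓ] A : ℕ) : ℤ) - (s : ℤ) * (t : ℤ) * ((ordCompl[ℓ] D : ℕ) : ℤ) := by
  have hℓ1 : (1 : ℝ) < (ℓ : ℝ) := by exact_mod_cast hℓ.out.one_lt
  have hℓ0 : (ℓ : ℝ) ≠ 0 := by positivity
  have hℓQ : (ℓ : ℚ_[ℓ]) ≠ 0 := by exact_mod_cast hℓ.out.ne_zero
  set α := A.factorization ℓ with hα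
  set δ := D.factorization ℓ with hδ
  set A' := ordCompl[ℓ] A with hA'
  set D' := ordCompl[ℓ] D with hD'
  have hAeq : (A : ℚ_[ℓ]) = (ℓ : ℚ_[ℓ]) ^ (α : ℤ) * (A' : ℚ_[ℓ]) := by
    rw [zpow_natCast]
    exact_mod_cast (Nat.ordProj_mul_ordCompl_eq_self A ℓ).symm
  have hDeq : (D : ℚ_[ℓ]) = (ℓ : ℚ_[ℓ]) ^ (δ : ℤ) * (D' : ℚ_[ℓ]) := by
    rw [zpow_natCast]
    exact_mod_cast (Nat.ordProj_mul_ordCompl_eq_self D ℓ).symm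
  have nA' : ‖(A' : ℚ_[ℓ])‖ = 1 := norm_natCast_ordCompl815 ℓ hA
  have nD' : ‖(D' : ℚ_[ℓ])‖ = 1 := norm_natCast_ordCompl815 ℓ hD
  have nt : ‖(t : ℚ_[ℓ])‖ = 1 :=
    Padic.norm_natCast_eq_one_iff.2 ((Nat.Prime.coprime_iff_not_dvd hℓ.out).2 ht)
  set Z : ℚ_[ℓ] := ((s : ℤ) : ℚ_[ℓ]) * (ℓ : ℚ_[ℓ]) ^ k * (t : ℚ_[ℓ]) with hZ
  have nZ : ‖Z‖ = (ℓ : ℝ) ^ (-k) := by
    rw [hZ, norm_mul, norm_mul, norm_unitsInt815, nt, Padic.norm_p_zpow, one_mul, mul_one]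
  have nY : ‖Y‖ = (ℓ : ℝ) ^ ((δ : ℤ) - (α : ℤ)) := by
    have h1 := congrArg norm hY
    rw [norm_mul, norm_mul, norm_unitsInt815, one_mul, hAeq, hDeq, norm_mul, norm_mul, nA', nD',
      Padic.norm_p_zpow, Padic.norm_p_zpow, mul_one, mul_one] at h1
    have h2 : ‖Y‖ = (ℓ : ℝ) ^ (-(α : ℤ)) / (ℓ : ℝ) ^ (-(δ : ℤ)) := by
      rw [← h1, mul_div_assoc, div_self (zpow_ne_zero _ hℓ0), mul_one]
    rw [h2, ← zpow_sub₀ hℓ0]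
    congr 1
    ring
  have hlt : ‖Y - Z‖ < ‖Z‖ := by
    refine lt_of_le_of_lt h ?_
    rw [nZ, Padic.norm_p, inv_zpow, ← zpow_neg]
    apply zpow_lt_zpow_right₀ hℓ1
    have : (0 : ℤ) < (e : ℤ) := by exact_mod_cast he
    omega
  have nYZ : ‖Y‖ = ‖Z‖ := Padic.norm_eq_of_norm_sub_lt_right hlt
  have hk : (δ : ℤ) - (α : ℤ) = -k := by
    rw [nY, nZ] at nYZ
    exact zpow_right_injective₀ (by positivity) hℓ1.ne' nYZ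
  have hkα : (ℓ : ℚ_[ℓ]) ^ k * (ℓ : ℚ_[ℓ]) ^ (δ : ℤ) = (ℓ : ℚ_[ℓ]) ^ (α : ℤ) := by
    rw [← zpow_add₀ hℓQ]
    congr 1
    omega
  set W : ℤ := (sg : ℤ) * ((A' : ℕ) : ℤ) - (s : ℤ) * (t : ℤ) * ((D' : ℕ) : ℤ) with hW
  have hWeq : (Y - Z) * (D : ℚ_[ℓ]) = (ℓ : ℚ_[ℓ]) ^ (α : ℤ) * (W : ℚ_[ℓ]) := by
    rw [sub_mul, hY, hAeq, hZ, hDeq, hW]
    push_cast
    rw [← hkα]
    ring
  have nW : ‖(W : ℚ_[ℓ])‖ = ‖Y - Z‖ * (ℓ : ℝ) ^ k := by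
    have h1 := congrArg norm hWeq
    rw [norm_mul, norm_mul, hDeq, norm_mul, nD', Padic.norm_p_zpow, Padic.norm_p_zpow, mul_one]
      at h1
    have h2 : ‖(W : ℚ_[ℓ])‖ = ‖Y - Z‖ * (ℓ : ℝ) ^ (-(δ : ℤ)) / (ℓ : ℝ) ^ (-(α : ℤ)) := by
      rw [h1, mul_comm ((ℓ : ℝ) ^ (-(α : ℤ))), mul_div_assoc, div_self (zpow_ne_zero _ hℓ0),
        mul_one]
    rw [h2, mul_div_assoc, ← zpow_sub₀ hℓ0]
    congr 2
    omega
  have nW' : ‖(W : ℚ_[ℓ])‖ ≤ (ℓ : ℝ) ^ (-(e : ℕ) : ℤ) := by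
    rw [nW]
    calc ‖Y - Z‖ * (ℓ : ℝ) ^ k ≤ ‖(ℓ : ℚ_[ℓ])‖ ^ (k + e) * (ℓ : ℝ) ^ k :=
          mul_le_mul_of_nonneg_right h (by positivity)
      _ = (ℓ : ℝ) ^ (-(e : ℕ) : ℤ) := by
          rw [Padic.norm_p, inv_zpow, ← zpow_neg, ← zpow_add₀ hℓ0]
          congr 1
          omega
  have hdvd := (Padic.norm_int_le_pow_iff_dvd W e).1 nW'
  rw [Nat.cast_pow]
  exact hdvd

/-- **The arithmetic lemma of STEP A.**  If `y ∈ ℚˣ` is `ℓ`-adically close to `s ℓ^k t` then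
`∏_{q ≠ ℓ} q ^ {v_q(y)} = ± t` in `(ℤ/ℓ^e)ˣ`. -/
theorem arith815 (e : ℕ) (he : 0 < e) (u : ℕ → (ZMod (ℓ ^ e))ˣ)
    (hu : ∀ q : ℕ, q.Prime → q ≠ ℓ →
      ((u q : (ZMod (ℓ ^ e))ˣ) : ZMod (ℓ ^ e)) = (q : ZMod (ℓ ^ e)))
    {y : ℚ} (hy : y ≠ 0) (S : Finset Nat.Primes) (hS : ∀ q ∈ S, (q : ℕ) ≠ ℓ)
    (hS' : ∀ q : Nat.Primes, (q : ℕ) ≠ ℓ → padicValRat q y ≠ 0 → q ∈ S)
    (k : ℤ) (s : ℤˣ) (t : ℕ) (ut : (ZMod (ℓ ^ e))ˣ)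
    (hut : ((ut : (ZMod (ℓ ^ e))ˣ) : ZMod (ℓ ^ e)) = (t : ZMod (ℓ ^ e)))
    (h : ‖((y : ℚ) : ℚ_[ℓ]) - ((s : ℤ) : ℚ_[ℓ]) * (ℓ : ℚ_[ℓ]) ^ k * (t : ℚ_[ℓ])‖
      ≤ ‖(ℓ : ℚ_[ℓ])‖ ^ (k + e)) :
    ∃ ε : (ZMod (ℓ ^ e))ˣ, ε * ε = 1 ∧ ∏ q ∈ S, u q ^ padicValRat q y = ε * ut := by
  have hA : y.num.natAbs ≠ 0 := Int.natAbs_ne_zero.2 (Rat.num_ne_zero.2 hy)
  have hD : y.den ≠ 0 := y.den_nz
  -- `t` is prime to `ℓ`
  have ht : ¬ ℓ ∣ t := by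
    have h1 : IsUnit ((t : ℕ) : ZMod (ℓ ^ e)) := hut ▸ ut.isUnit
    have h2 : t.Coprime (ℓ ^ e) := (ZMod.isUnit_iff_coprime t (ℓ ^ e)).1 h1
    have h3 : t.Coprime ℓ := (Nat.coprime_pow_right_iff he t ℓ).1 h2
    exact fun hdvd => (Nat.Prime.coprime_iff_not_dvd hℓ.out).1 h3.symm hdvd
  -- the sign of `y`
  obtain ⟨sg, hsg⟩ : ∃ sg : ℤˣ, y.num = (sg : ℤ) * (y.num.natAbs : ℤ) := by
    rcases Int.natAbs_eq y.num with h1 | h1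
    · exact ⟨1, by rw [Units.val_one, one_mul]; exact h1⟩
    · exact ⟨-1, by rw [Units.val_neg, Units.val_one, neg_one_mul]; exact h1⟩
  have hY : ((y : ℚ) : ℚ_[ℓ]) * ((y.den : ℕ) : ℚ_[ℓ]) =
      ((sg : ℤ) : ℚ_[ℓ]) * ((y.num.natAbs : ℕ) : ℚ_[ℓ]) := by
    have h1 : (y : ℚ) * (y.den : ℚ) = ((sg : ℤ) : ℚ) * ((y.num.natAbs : ℕ) : ℚ) := by
      rw [Rat.mul_den_eq_num]
      have h2 := congrArg (Int.cast : ℤ → ℚ) hsg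
      rw [Int.cast_mul, Int.cast_natCast] at h2
      exact h2
    have h3 := congrArg (Rat.cast : ℚ → ℚ_[ℓ]) h1
    rw [Rat.cast_mul, Rat.cast_mul, Rat.cast_natCast, Rat.cast_intCast, Rat.cast_natCast] at h3
    exact h3
  have hdvd := padic_congr815 ℓ e he hA hD sg _ hY k s t ht h
  -- the congruence in `ZMod (ℓ ^ e)`
  have hcong : (((sg : ℤ) : ZMod (ℓ ^ e))) * ((ordCompl[ℓ] y.num.natAbs : ℕ) : ZMod (ℓ ^ e)) =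
      ((s : ℤ) : ZMod (ℓ ^ e)) * (t : ZMod (ℓ ^ e)) * ((ordCompl[ℓ] y.den : ℕ) : ZMod (ℓ ^ e)) := by
    have h1 := (ZMod.intCast_zmod_eq_zero_iff_dvd _ (ℓ ^ e)).2 hdvd
    rw [Int.cast_sub, Int.cast_mul, Int.cast_mul, Int.cast_mul, Int.cast_natCast,
      Int.cast_natCast, Int.cast_natCast] at h1
    exact sub_eq_zero.1 h1
  -- units
  let sgU : (ZMod (ℓ ^ e))ˣ := Units.map (Int.castRingHom (ZMod (ℓ ^ e))).toMonoidHom sg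
  let sU : (ZMod (ℓ ^ e))ˣ := Units.map (Int.castRingHom (ZMod (ℓ ^ e))).toMonoidHom s
  have hsgU : sgU * sgU = 1 := by
    rw [← map_mul, Int.units_mul_self, map_one]
  have hsU : sU * sU = 1 := by
    rw [← map_mul, Int.units_mul_self, map_one]
  have hunits : sgU * unitPart815 ℓ u y.num.natAbs = sU * ut * unitPart815 ℓ u y.den := by
    apply Units.ext
    rw [Units.val_mul, Units.val_mul, Units.val_mul, unitPart815_val ℓ u hℓ.out hu hA,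
      unitPart815_val ℓ u hℓ.out hu hD, hut]
    exact hcong
  refine ⟨sgU * sU, ?_, ?_⟩
  · rw [mul_mul_mul_comm, hsgU, hsU, one_mul]
  · rw [prod_padicValRat815 ℓ u hℓ.out hy S hS hS']
    have h1 : unitPart815 ℓ u y.num.natAbs = sgU * (sU * ut * unitPart815 ℓ u y.den) := by
      rw [← hunits, ← mul_assoc, hsgU, one_mul]
    rw [h1]
    group

end PadicPart

end Fermat.Agent.S55.G.Rec.H815
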