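import Fermat.Agent.S55.G.Rec.SAH815.Place
import Fermat.Agent.S55.G.Rec.SAH815.Arith

/-!
# S55 / REC2 / STEP A (helper815), part 4: the sum over the places away from `ℓ`, and the
reduction of `CycloSumSpec` to the `ℓ`-adic half (SA3).
-/

set_option autoImplicit false

noncomputable section

namespace Fermat.Agent.S55.G.Rec.H815

open groupCohomology

local notation "Qb" => AlgebraicClosure ℚ
local notation "GQ" => (AlgebraicClosure ℚ ≃ₐ[ℚ] AlgebraicClosure ℚ)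

/-! ## An abstract lemma on characters factoring through an abelian quotient -/

section Abstract

variable {G A : Type*} [Group G] [CommGroup A] {n : ℕ}

lemma chiAdd_one815 (χ : G →* Multiplicative (ZMod n)) : chiAdd χ 1 = 0 := by
  simp [chiAdd]

lemma chiAdd_inv815 (χ : G →* Multiplicative (ZMod n)) (g : G) :
    chiAdd χ g⁻¹ = - chiAdd χ g := by
  simp [chiAdd]

lemma chiAdd_zpow815 (χ : G →* Multiplicative (ZMod n)) (g : G) (k : ℤ) :
    chiAdd χ (g ^ k) = k • chiAdd χ g := by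
  simp [chiAdd, map_zpow]

lemma chiAdd_eq_zero_of_two_nsmul815 (hn : Odd n) (x : ZMod n) (h : x + x = 0) : x = 0 := by
  obtain ⟨j, hj⟩ := hn
  have e : (2 * j + 1) • x = x := by
    rw [add_nsmul, one_nsmul, mul_nsmul, two_nsmul, h, smul_zero, zero_add]
  have h4 : (2 * j + 1) • x = 0 := by
    rw [nsmul_eq_mul]
    have : ((2 * j + 1 : ℕ) : ZMod n) = 0 := by
      rw [← hj, ZMod.natCast_self]
    rw [this, zero_mul]
  rw [← e, h4]

/-- If `χ` (of odd order) factors through `c` and `∏ c(Φ_i)^{k_i} = ± c(σ)`, then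
`∑ k_i χ(Φ_i) = χ(σ)`. -/
lemma sum_chiAdd_eq815 (hn : Odd n) (c : G →* A) (χ : G →* Multiplicative (ZMod n))
    (hker : ∀ σ, c σ = 1 → χ σ = 1) {ι : Type*} (s : Finset ι) (Φ : ι → G) (k : ι → ℤ) :
    ∀ (σ : G) (ε : A), ε * ε = 1 → ∏ i ∈ s, c (Φ i) ^ k i = ε * c σ →
      ∑ i ∈ s, k i • chiAdd χ (Φ i) = chiAdd χ σ := by
  classical
  induction s using Finset.induction_on with
  | empty =>
    intro σ ε hε h
    rw [Finset.prod_empty] at h
    rw [Finset.sum_empty]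
    have h1 : c (σ * σ) = 1 := by
      rw [map_mul]
      calc c σ * c σ = (ε * ε) * (c σ * c σ) := by rw [hε, one_mul]
        _ = (ε * c σ) * (ε * c σ) := by rw [mul_mul_mul_comm]
        _ = 1 := by rw [← h, one_mul]
    have h2 := hker _ h1
    have h3 : chiAdd χ σ + chiAdd χ σ = 0 := by
      rw [← chiAdd_mul]
      show Multiplicative.toAdd (χ (σ * σ)) = 0
      rw [h2]
      rfl
    exact (chiAdd_eq_zero_of_two_nsmul815 hn _ h3).symm
  | insert i s hi ih =>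
    intro σ ε hε h
    rw [Finset.prod_insert hi] at h
    rw [Finset.sum_insert hi]
    have h1 : ∏ j ∈ s, c (Φ j) ^ k j = ε * c ((Φ i) ^ (- k i) * σ) := by
      rw [map_mul, map_zpow, zpow_neg]
      calc ∏ j ∈ s, c (Φ j) ^ k j
          = (c (Φ i) ^ k i)⁻¹ * (c (Φ i) ^ k i * ∏ j ∈ s, c (Φ j) ^ k j) := by
            rw [inv_mul_cancel_left]
        _ = (c (Φ i) ^ k i)⁻¹ * (ε * c σ) := by rw [h]
        _ = ε * ((c (Φ i) ^ k i)⁻¹ * c σ) := by rw [mul_left_comm]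
    rw [ih _ ε hε h1, chiAdd_mul, chiAdd_zpow815, neg_smul]
    abel

end Abstract

lemma zpow_sum815 {A : Type*} [CommGroup A] {ι : Type*} (s : Finset ι) (g : ι → ℤ) (x : A) :
    x ^ (∑ i ∈ s, g i) = ∏ i ∈ s, x ^ g i := by
  classical
  induction s using Finset.induction_on with
  | empty => simp
  | insert i s hi ih => rw [Finset.sum_insert hi, Finset.prod_insert hi, zpow_add, ih]

/-! ## Units of `ZMod m` attached to primes -/

/-- The unit of `ZMod m` with value `q` (junk value `1` if `q` is not prime to `m`). -/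
def u815 (m : ℕ) (q : ℕ) : (ZMod m)ˣ :=
  if h : Nat.Coprime q m then ZMod.unitOfCoprime q h else 1

lemma u815_val (ℓ e : ℕ) (hℓ : ℓ.Prime) (q : ℕ) (hq : q.Prime) (hne : q ≠ ℓ) :
    ((u815 (ℓ ^ e) q : (ZMod (ℓ ^ e))ˣ) : ZMod (ℓ ^ e)) = (q : ZMod (ℓ ^ e)) := by
  have h : Nat.Coprime q (ℓ ^ e) := Nat.Coprime.pow_right e ((Nat.coprime_primes hq hℓ).2 hne)
  rw [u815, dif_pos h]
  exact ZMod.coe_unitOfCoprime q h

lemma finite_padicValRat_ne_zero815 {y : ℚ} (hy : y ≠ 0) :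
    {q : Nat.Primes | padicValRat q y ≠ 0}.Finite := by
  have hA : y.num.natAbs ≠ 0 := Int.natAbs_ne_zero.2 (Rat.num_ne_zero.2 hy)
  have hD : y.den ≠ 0 := y.den_nz
  have hfin : ((fun q : Nat.Primes => (q : ℕ)) ⁻¹'
      ((y.num.natAbs * y.den).primeFactors : Set ℕ)).Finite :=
    Set.Finite.preimage (fun a _ b _ h => Subtype.ext h) (Finset.finite_toSet _)
  refine hfin.subset ?_
  intro q hq
  have hq' : padicValRat q y ≠ 0 := hq
  have : Fact (q : ℕ).Prime := ⟨q.2⟩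
  show (q : ℕ) ∈ ((y.num.natAbs * y.den).primeFactors : Set ℕ)
  rw [Finset.mem_coe, Nat.mem_primeFactors]
  refine ⟨q.2, ?_, Nat.mul_ne_zero hA hD⟩
  by_contra hnd
  apply hq'
  have h1 : ¬ (q : ℕ) ∣ y.num.natAbs := fun h => hnd (h.mul_right _)
  have h2 : ¬ (q : ℕ) ∣ y.den := fun h => hnd (h.mul_left _)
  rw [padicValRat_eq_sub815, padicValNat.eq_zero_of_not_dvd h1,
    padicValNat.eq_zero_of_not_dvd h2]
  simp

/-! ## The sum over the places away from `ℓ` -/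

/-- The conclusion of the `ℓ`-adic half (SA3) for a given `a` with norm `y`. -/
def EllHalfAt815 (U : Subgroup GQ) (ℓ : ℕ) [Fact ℓ.Prime] (e : ℕ) {n : ℕ}
    (χ : ↥U →* Multiplicative (ZMod n)) (y : ℚˣ) : Prop :=
  ∃ (k : ℤ) (s : ℤˣ) (t : ℕ) (σ : ↥U), χ σ = 1 ∧
    (∀ ζ : Qb, ζ ^ (ℓ ^ e) = 1 → (σ : GQ) ζ = ζ ^ t) ∧
    ‖(((y : ℚ) : ℚ_[ℓ])) - ((s : ℤ) : ℚ_[ℓ]) * (ℓ : ℚ_[ℓ]) ^ k * (t : ℚ_[ℓ])‖
      ≤ ‖(ℓ : ℚ_[ℓ])‖ ^ (k + e)

theorem sumInv_eq_zero815 (I : LocalInvSystem) (hK1 : CupLocSpec) (hL2 : LocalStructureSpec)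
    (hL3 : UnramCupSpec I) (hL4 : CycloFrobSpec) (hG1b : ProductFormulaSpec)
    (hG4 : SupportFiniteSpec)
    (U : Subgroup GQ) (hU : IsOpenQ U) (ℓ : ℕ) [hℓ : Fact ℓ.Prime] (e : ℕ) (he : 0 < e)
    (n : ℕ) (hn : Odd n) (χ : ↥U →* Multiplicative (ZMod n))
    (hχ : IsLevelConstant₁ U.subtype χ) (hcyc : IsCycloChar U (ℓ ^ e) χ)
    (a : Qbˣ) (ha : GFixed U a)
    (hloc : ∀ g : GQ, locBr ℓ g U (gcc U n χ a) = 0)
    (y : ℚˣ) (hy : ((relNorm U a : Qbˣ) : Qb) = algebraMap ℚ Qb (y : ℚ))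
    (hell : EllHalfAt815 U ℓ e χ y)
    (R : Nat.Primes → Finset GQ) (hR : IsPlaceReps U R) :
    I.sumInv U R (gcc U n χ a) = 0 := by
  classical
  have : NeZero n := ⟨hn.pos.ne'⟩
  have : NeZero (ℓ ^ e) := ⟨pow_ne_zero e hℓ.out.ne_zero⟩
  set x := gcc U n χ a with hx
  -- the finite set of relevant primes
  have hB := hG4 I U hU x
  have hYf := finite_padicValRat_ne_zero815 (y := (y : ℚ)) y.ne_zero
  set S : Finset Nat.Primes :=
    (hB.toFinset ∪ hYf.toFinset).filter (fun q => (q : ℕ) ≠ ℓ) with hS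
  have hSℓ : ∀ q ∈ S, (q : ℕ) ≠ ℓ := fun q hq => (Finset.mem_filter.1 hq).2
  have hSY : ∀ q : Nat.Primes, (q : ℕ) ≠ ℓ → padicValRat q (y : ℚ) ≠ 0 → q ∈ S := by
    intro q hqℓ hq
    exact Finset.mem_filter.2 ⟨Finset.mem_union_right _ ((Set.Finite.mem_toFinset _).2 hq), hqℓ⟩
  -- the sum is a finite sum over `S`
  have hsupp : Function.support (fun q : Nat.Primes => ∑ r ∈ R q, I.invAt q r U x) ⊆
      (S : Set Nat.Primes) := by
    intro q hq
    rw [Function.mem_support] at hq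
    obtain ⟨r, -, hne⟩ := Finset.exists_ne_zero_of_sum_ne_zero hq
    have hloc' : (haveI : Fact (q : ℕ).Prime := ⟨q.2⟩; locBr (q : ℕ) r U x ≠ 0) := by
      intro h0
      apply hne
      unfold LocalInvSystem.invAt
      rw [h0, map_zero]
    have hqB : q ∈ hB.toFinset := (Set.Finite.mem_toFinset _).2 ⟨r, hloc'⟩
    have hqℓ : (q : ℕ) ≠ ℓ := by
      intro h
      obtain ⟨qv, qp⟩ := q
      simp only at h
      subst h
      exact hloc' (hloc r)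
    exact Finset.mem_coe.2 (Finset.mem_filter.2 ⟨Finset.mem_union_left _ hqB, hqℓ⟩)
  have hfin : I.sumInv U R x = ∑ q ∈ S, ∑ r ∈ R q, I.invAt q r U x :=
    finsum_eq_sum_of_support_subset _ hsupp
  -- the data at the places away from `ℓ`
  have key : ∀ (q : Nat.Primes) (r : GQ), ∃ (f : ℕ) (k : ℤ) (Φ : ↥U), (q : ℕ) ≠ ℓ →
      (haveI : Fact (q : ℕ).Prime := ⟨q.2⟩;
        vdeg (q : ℕ) (locSub (q : ℕ) r U) (locPushMul (q : ℕ) r a) = f * k) ∧
      cyc815 (ℓ ^ e) (Φ : GQ) = u815 (ℓ ^ e) q ^ f ∧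
      I.invAt q r U x = k • iota815 n (chiAdd χ Φ) := by
    intro q r
    by_cases hq : (q : ℕ) = ℓ
    · exact ⟨0, 0, 1, fun h => absurd hq h⟩
    · have : Fact (q : ℕ).Prime := ⟨q.2⟩
      have hqm : ¬ (q : ℕ) ∣ ℓ ^ e := fun hd =>
        hq ((Nat.prime_dvd_prime_iff_eq q.2 hℓ.out).1 (q.2.dvd_of_dvd_pow hd))
      obtain ⟨f, k, Φ, h1, h2, h3⟩ := place_formula815 I hK1 hL2 hL3 hL4 (q : ℕ) (ℓ ^ e) hqm
        U hU n χ hχ hcyc a ha r
      refine ⟨f, k, Φ, fun _ => ⟨h1, ?_, h3⟩⟩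
      apply Units.ext
      rw [h2, Units.val_pow_eq_pow_val, u815_val ℓ e hℓ.out q q.2 hq, Nat.cast_pow]
  choose f k Φ hkey using key
  have hsum : ∑ q ∈ S, ∑ r ∈ R q, I.invAt q r U x =
      iota815 n (∑ q ∈ S, ∑ r ∈ R q, k q r • chiAdd χ (Φ q r)) := by
    rw [map_sum]
    apply Finset.sum_congr rfl
    intro q hq
    rw [map_sum]
    apply Finset.sum_congr rfl
    intro r _
    rw [map_zsmul]
    exact (hkey q r (hSℓ q hq)).2.2
  -- the `ℓ`-adic half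
  obtain ⟨kk, s, t, σ, hσχ, hσact, hnorm⟩ := hell
  have hct : ((cyc815 (ℓ ^ e) (σ : GQ) : (ZMod (ℓ ^ e))ˣ) : ZMod (ℓ ^ e)) = (t : ZMod (ℓ ^ e)) :=
    cyc815_eq_of_actsBy _ _ t hσact
  obtain ⟨ε, hε, hprod⟩ := arith815 ℓ e he (u815 (ℓ ^ e))
    (fun q hq hne => u815_val ℓ e hℓ.out q hq hne) y.ne_zero S hSℓ hSY kk s t
    (cyc815 (ℓ ^ e) (σ : GQ)) hct hnorm
  have hcprod : ∏ v ∈ S.sigma R,
      ((cyc815 (ℓ ^ e)).comp U.subtype) (Φ v.1 v.2) ^ k v.1 v.2 =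
        ε * ((cyc815 (ℓ ^ e)).comp U.subtype) σ := by
    rw [Finset.prod_sigma]
    show _ = ε * cyc815 (ℓ ^ e) (σ : GQ)
    rw [← hprod]
    apply Finset.prod_congr rfl
    intro q hq
    have hq' := hSℓ q hq
    have hpf : padicValRat q (y : ℚ) = ∑ r ∈ R q, (f q r : ℤ) * k q r := by
      have : Fact (q : ℕ).Prime := ⟨q.2⟩
      rw [hG1b U hU a ha y hy (q : ℕ) (R q) (hR q)]
      exact Finset.sum_congr rfl (fun r _ => (hkey q r hq').1)
    rw [hpf, zpow_sum815]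
    apply Finset.prod_congr rfl
    intro r _
    show cyc815 (ℓ ^ e) ((Φ q r : ↥U) : GQ) ^ k q r = _
    rw [(hkey q r hq').2.1, ← zpow_natCast, ← zpow_mul]
  have hfinal := sum_chiAdd_eq815 hn ((cyc815 (ℓ ^ e)).comp U.subtype) χ
    (fun τ hτ => chi_eq_one_of_cyc815 hcyc τ hτ) (S.sigma R)
    (fun v => Φ v.1 v.2) (fun v => k v.1 v.2) σ ε hε hcprod
  rw [Finset.sum_sigma] at hfinal
  rw [hfin, hsum, hfinal]
  have h0 : chiAdd χ σ = 0 := by
    show Multiplicative.toAdd (χ σ) = 0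
    rw [hσχ]
    rfl
  rw [h0, map_zero]

end Fermat.Agent.S55.G.Rec.H815
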