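import Fermat.Agent.S55.G.Rec.Spec2

/-!
# S55 / REC2 / STEP A (helper815), part 1: the cyclotomic character mod `m` on `G_ℚ`

* `cyc815 m : G_ℚ →* (ZMod m)ˣ` with `σ ζ = ζ ^ (cyc815 m σ).val` for EVERY `ζ ∈ μ_m(ℚ̄)`;
* a character `χ` of `U` which is cyclotomic mod `m` (`IsCycloChar`) factors through `cyc815 m`;
  if `χ` has odd order it kills the elements acting by `-1`;
* transport from `G_{ℚ_q}`: the action of `localGaloisToGlobal q τ` on `μ_m(ℚ̄)` is the action of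
  `τ` on `μ_m(ℚ̄_q)`; conjugation does not change `cyc815`.
-/

set_option autoImplicit false

noncomputable section

namespace Fermat.Agent.S55.G.Rec.H815

local notation "Qb" => AlgebraicClosure ℚ
local notation "GQ" => (AlgebraicClosure ℚ ≃ₐ[ℚ] AlgebraicClosure ℚ)

/-- A primitive `m`-th root of unity in `ℚ̄`. -/
def zeta815 (m : ℕ) [NeZero m] : Qb :=
  (HasEnoughRootsOfUnity.exists_primitiveRoot Qb m).choose

lemma zeta815_spec (m : ℕ) [NeZero m] : IsPrimitiveRoot (zeta815 m) m :=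
  (HasEnoughRootsOfUnity.exists_primitiveRoot Qb m).choose_spec

/-- The cyclotomic character mod `m` of `G_ℚ`. -/
def cyc815 (m : ℕ) [NeZero m] : GQ →* (ZMod m)ˣ :=
  (zeta815_spec m).autToPow ℚ

lemma cyc815_zeta (m : ℕ) [NeZero m] (σ : GQ) :
    σ (zeta815 m) = zeta815 m ^ ((cyc815 m σ : (ZMod m)ˣ) : ZMod m).val :=
  ((zeta815_spec m).autToPow_spec ℚ σ).symm

/-- `σ` acts on ALL of `μ_m(ℚ̄)` by the exponent `cyc815 m σ`. -/
lemma cyc815_apply (m : ℕ) [NeZero m] (σ : GQ) {ζ : Qb} (hζ : ζ ^ m = 1) :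
    σ ζ = ζ ^ ((cyc815 m σ : (ZMod m)ˣ) : ZMod m).val := by
  obtain ⟨i, -, rfl⟩ := (zeta815_spec m).eq_pow_of_pow_eq_one hζ
  rw [map_pow, cyc815_zeta, ← pow_mul, ← pow_mul, mul_comm]

/-- Powers of an `m`-th root of unity only depend on the exponent mod `m`. -/
lemma pow_eq_pow_of_natCast_eq815 {m : ℕ} {ζ : Qb} (hζ : ζ ^ m = 1) {a b : ℕ}
    (h : (a : ZMod m) = (b : ZMod m)) : ζ ^ a = ζ ^ b := by
  rw [ZMod.natCast_eq_natCast_iff] at h
  rw [← Nat.div_add_mod a m, ← Nat.div_add_mod b m, pow_add, pow_add, pow_mul, pow_mul, hζ,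
    one_pow, one_pow, one_mul, one_mul, h]

/-- For the primitive root, equality of powers is equality of exponents mod `m`. -/
lemma natCast_eq_of_zeta_pow_eq815 (m : ℕ) [NeZero m] {a b : ℕ}
    (h : zeta815 m ^ a = zeta815 m ^ b) : (a : ZMod m) = (b : ZMod m) := by
  have hζ := zeta815_spec m
  obtain ⟨u, hu⟩ := hζ.isUnit (NeZero.ne m)
  rw [← hu] at h hζ
  have hu' : IsPrimitiveRoot u m := IsPrimitiveRoot.coe_units_iff.1 hζ
  rw [ZMod.natCast_eq_natCast_iff]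
  rw [← Units.val_pow_eq_pow_val, ← Units.val_pow_eq_pow_val, Units.val_inj,
    pow_eq_pow_iff_modEq, ← hu'.eq_orderOf] at h
  exact h

/-- If `σ` acts on `μ_m(ℚ̄)` by the exponent `t`, then `cyc815 m σ` is the class of `t`. -/
lemma cyc815_eq_of_actsBy (m : ℕ) [NeZero m] (σ : GQ) (t : ℕ)
    (h : ∀ ζ : Qb, ζ ^ m = 1 → σ ζ = ζ ^ t) :
    ((cyc815 m σ : (ZMod m)ˣ) : ZMod m) = (t : ZMod m) := by
  have h1 := h (zeta815 m) (zeta815_spec m).pow_eq_one
  rw [cyc815_zeta] at h1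
  have h2 := natCast_eq_of_zeta_pow_eq815 m h1
  rwa [ZMod.natCast_zmod_val] at h2

/-- `σ` acts on `μ_m(ℚ̄)` by every natural number representing `cyc815 m σ`. -/
lemma cyc815_actsBy (m : ℕ) [NeZero m] (σ : GQ) (t : ℕ)
    (h : ((cyc815 m σ : (ZMod m)ˣ) : ZMod m) = (t : ZMod m)) {ζ : Qb} (hζ : ζ ^ m = 1) :
    σ ζ = ζ ^ t := by
  rw [cyc815_apply m σ hζ]
  apply pow_eq_pow_of_natCast_eq815 hζ
  rw [ZMod.natCast_zmod_val, h]

lemma cyc815_eq_one_iff (m : ℕ) [NeZero m] (σ : GQ) :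
    cyc815 m σ = 1 ↔ ∀ ζ : Qb, ζ ^ m = 1 → σ ζ = ζ := by
  constructor
  · intro h ζ hζ
    have := cyc815_actsBy m σ 1 (by rw [h]; simp) hζ
    rwa [pow_one] at this
  · intro h
    apply Units.ext
    have := cyc815_eq_of_actsBy m σ 1 (fun ζ hζ => by rw [pow_one]; exact h ζ hζ)
    rw [this]
    simp

/-! ## Cyclotomic characters factor through `cyc815` -/

section Factor

variable {U : Subgroup GQ} {m n : ℕ} [NeZero m] {χ : ↥U →* Multiplicative (ZMod n)}

lemma chi_eq_one_of_cyc815 (hχ : IsCycloChar U m χ) (σ : ↥U) (h : cyc815 m (σ : GQ) = 1) :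
    χ σ = 1 :=
  hχ σ ((cyc815_eq_one_iff m σ).1 h)

lemma chi_eq_of_cyc815_eq (hχ : IsCycloChar U m χ) (σ σ' : ↥U)
    (h : cyc815 m (σ : GQ) = cyc815 m (σ' : GQ)) : χ σ = χ σ' := by
  have h1 : χ (σ * σ'⁻¹) = 1 := by
    apply chi_eq_one_of_cyc815 hχ
    rw [Subgroup.coe_mul, Subgroup.coe_inv, map_mul, map_inv, h, mul_inv_cancel]
  rw [map_mul, map_inv, mul_inv_eq_one] at h1
  exact h1

/-- A character of odd order kills the elements acting by `-1` ("complex conjugations"). -/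
lemma chi_eq_one_of_cyc815_eq_neg_one (hn : Odd n) (hχ : IsCycloChar U m χ) (σ : ↥U)
    (h : cyc815 m (σ : GQ) = -1) : χ σ = 1 := by
  have h2 : χ (σ * σ) = 1 := by
    apply chi_eq_one_of_cyc815 hχ
    rw [Subgroup.coe_mul, map_mul, h]
    simp
  have h3 : (2 : ℕ) • chiAdd χ σ = 0 := by
    have := congrArg Multiplicative.toAdd h2
    rw [map_mul, toAdd_mul, toAdd_one] at this
    rw [two_nsmul]
    exact this
  have h4 : (n : ℕ) • chiAdd χ σ = 0 := by
    rw [nsmul_eq_mul, ZMod.natCast_self, zero_mul]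
  obtain ⟨k, hk⟩ := hn
  have h5 : chiAdd χ σ = 0 := by
    have e : (2 * k + 1) • chiAdd χ σ = chiAdd χ σ := by
      rw [add_nsmul, one_nsmul, mul_nsmul, h3, smul_zero, zero_add]
    have h4' : (2 * k + 1) • chiAdd χ σ = 0 := by
      rw [nsmul_eq_mul]
      have : ((2 * k + 1 : ℕ) : ZMod n) = 0 := by
        rw [← hk, ZMod.natCast_self]
      rw [this, zero_mul]
    rw [← e, h4']
  show Multiplicative.ofAdd (chiAdd χ σ) = 1
  rw [h5]
  rfl

/-- The combined statement: if `cyc815 σ = ± cyc815 σ'` then `χ σ = χ σ'`. -/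
lemma chi_eq_of_cyc815_eq_or_neg (hn : Odd n) (hχ : IsCycloChar U m χ) (σ σ' : ↥U)
    (h : cyc815 m (σ : GQ) = cyc815 m (σ' : GQ) ∨ cyc815 m (σ : GQ) = - cyc815 m (σ' : GQ)) :
    χ σ = χ σ' := by
  rcases h with h | h
  · exact chi_eq_of_cyc815_eq hχ σ σ' h
  · have h1 : χ (σ * σ'⁻¹) = 1 := by
      apply chi_eq_one_of_cyc815_eq_neg_one hn hχ
      rw [Subgroup.coe_mul, Subgroup.coe_inv, map_mul, map_inv, h]
      rw [neg_mul, mul_inv_cancel]
    rw [map_mul, map_inv, mul_inv_eq_one] at h1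
    exact h1

end Factor

/-! ## Transport from the local Galois groups -/

section Transport

variable (q : ℕ) [Fact q.Prime]

local notation "Gq" => (PadicAlgCl q ≃ₐ[ℚ_[q]] PadicAlgCl q)

/-- If `τ ∈ G_{ℚ_q}` acts on `μ_m(ℚ̄_q)` by `t`, then its image in `G_ℚ` acts on `μ_m(ℚ̄)` by `t`. -/
lemma cyc815_loc (m : ℕ) [NeZero m] (τ : Gq) (t : ℕ)
    (h : ∀ ζ : PadicAlgCl q, ζ ^ m = 1 → τ ζ = ζ ^ t) :
    ((cyc815 m (localGaloisToGlobal q τ) : (ZMod m)ˣ) : ZMod m) = (t : ZMod m) := by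
  apply cyc815_eq_of_actsBy
  intro ζ hζ
  have hinj : Function.Injective (padicEmbedding q) := (padicEmbedding q).injective
  apply hinj
  rw [padicEmbedding_localGaloisToGlobal, map_pow]
  apply h
  rw [← map_pow, hζ, map_one]

/-- Conversely, the action of `τ` on `μ_m(ℚ̄_q)` is given by `cyc815` of its image in `G_ℚ`. -/
lemma loc_actsBy_cyc815 (m : ℕ) [NeZero m] (τ : Gq) {ζ : PadicAlgCl q} (hζ : ζ ^ m = 1) :
    τ ζ = ζ ^ ((cyc815 m (localGaloisToGlobal q τ) : (ZMod m)ˣ) : ZMod m).val := by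
  -- `ζ` is the image of a root of unity of `ℚ̄`
  have hprim : IsPrimitiveRoot (padicEmbedding q (zeta815 m)) m :=
    (zeta815_spec m).map_of_injective (padicEmbedding q).injective
  obtain ⟨i, -, rfl⟩ := hprim.eq_pow_of_pow_eq_one hζ
  rw [map_pow, ← padicEmbedding_localGaloisToGlobal, cyc815_zeta, map_pow, ← pow_mul, ← pow_mul,
    mul_comm]

/-- `cyc815` is invariant under conjugation. -/
lemma cyc815_conj (m : ℕ) [NeZero m] (g σ : GQ) : cyc815 m (g * σ * g⁻¹) = cyc815 m σ := by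
  rw [map_mul, map_mul, map_inv, mul_comm, ← mul_assoc, inv_mul_cancel, one_mul]

end Transport

end Fermat.Agent.S55.G.Rec.H815
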