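import Fermat.Agent.S55.G.Rec.SAH815.CycChar
import Fermat.Agent.S55.G.Rec.H124.ProductFormula

/-!
# S55 / REC2 / STEP A (helper815), part 2 (= SA2): the local invariant at a place `v ∤ ℓ`

For `χ` cyclotomic mod `m`, `q ∤ m`, a place `v = (q, g)` of `K = ℚ̄^U` and `a ∈ Kˣ`:
there are `f_v`, `k_v` and `Frob_v ∈ U` with `vdeg_v a = f_v k_v`, `Frob_v` acting on `μ_m(ℚ̄)` by
`q ^ f_v`, and `inv_v ((a ∪ δχ)_v) = k_v · χ(Frob_v) / n`.
-/

set_option autoImplicit false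

noncomputable section

namespace Fermat.Agent.S55.G.Rec.H815

open groupCohomology

local notation "Qb" => AlgebraicClosure ℚ
local notation "GQ" => (AlgebraicClosure ℚ ≃ₐ[ℚ] AlgebraicClosure ℚ)

/-! ## The embedding `ℤ/n → ℚ/ℤ` -/

/-- `k ↦ k / n mod 1`, on `ℤ`. -/
def iotaZ815 (n : ℕ) : ℤ →+ AddCircle (1 : ℚ) where
  toFun k := ((((k : ℚ) / (n : ℚ) : ℚ)) : AddCircle (1 : ℚ))
  map_zero' := by simp
  map_add' a b := by
    rw [← AddCircle.coe_add]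
    congr 1
    push_cast
    ring

lemma iotaZ815_self (n : ℕ) [NeZero n] : iotaZ815 n (n : ℤ) = 0 := by
  show ((((((n : ℕ) : ℤ) : ℚ) / (n : ℚ) : ℚ)) : AddCircle (1 : ℚ)) = 0
  have hn : (n : ℚ) ≠ 0 := Nat.cast_ne_zero.2 (NeZero.ne n)
  rw [Int.cast_natCast, div_self hn]
  exact AddCircle.coe_period 1

/-- The standard embedding `ℤ/n → ℚ/ℤ`, `x ↦ x.val / n`. -/
def iota815 (n : ℕ) [NeZero n] : ZMod n →+ AddCircle (1 : ℚ) :=
  ZMod.lift n ⟨iotaZ815 n, iotaZ815_self n⟩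

lemma iota815_apply (n : ℕ) [NeZero n] (x : ZMod n) :
    iota815 n x = ((((x.val : ℚ) / (n : ℚ) : ℚ)) : AddCircle (1 : ℚ)) := by
  conv_lhs => rw [← ZMod.natCast_zmod_val x]
  have : ((x.val : ℕ) : ZMod n) = (((x.val : ℕ) : ℤ) : ZMod n) := by push_cast; rfl
  rw [this]
  unfold iota815
  rw [ZMod.lift_coe]
  show ((((((x.val : ℕ) : ℤ) : ℚ) / (n : ℚ) : ℚ)) : AddCircle (1 : ℚ)) = _
  rw [Int.cast_natCast]

/-- The right-hand side of the unramified formula (L3) is `k • ι(χ φ)`. -/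
lemma coe_mul_div_eq_zsmul_iota815 (n : ℕ) [NeZero n] (k : ℤ) (x : ZMod n) :
    (((((k : ℚ) * (x.val : ℚ) / (n : ℚ) : ℚ)) : AddCircle (1 : ℚ))) = k • iota815 n x := by
  rw [iota815_apply, ← AddCircle.coe_zsmul, zsmul_eq_mul, mul_div_assoc]

/-! ## The formula at a place away from `ℓ` -/

/-- **(SA2)** the local invariant of a cyclotomic cup class at a place `v = (q, g)`, `q ∤ m`. -/
theorem place_formula815 (I : LocalInvSystem) (hK1 : CupLocSpec) (hL2 : LocalStructureSpec)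
    (hL3 : UnramCupSpec I) (hL4 : CycloFrobSpec)
    (q : ℕ) [Fact q.Prime] (m : ℕ) [NeZero m] (hqm : ¬ q ∣ m)
    (U : Subgroup GQ) (hU : IsOpenQ U) (n : ℕ) [NeZero n] (χ : ↥U →* Multiplicative (ZMod n))
    (hχ : IsLevelConstant₁ U.subtype χ) (hcyc : IsCycloChar U m χ) (a : Qbˣ) (ha : GFixed U a)
    (g : GQ) :
    ∃ (f : ℕ) (k : ℤ) (Φ : ↥U),
      vdeg q (locSub q g U) (locPushMul q g a) = f * k ∧
      ((cyc815 m (Φ : GQ) : (ZMod m)ˣ) : ZMod m) = ((q ^ f : ℕ) : ZMod m) ∧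
      I.inv q (locSub q g U) (locBr q g U (gcc U n χ a)) = k • iota815 n (chiAdd χ Φ) := by
  obtain ⟨⟨hχv, hav⟩, hloc⟩ := hK1 q g U n χ a (NeZero.ne n) hχ ha
  have hV : IsOpenL q (locSub q g U) := H124.isOpenL_locSub124 q hU g
  obtain ⟨f, φ, π, hf, hφV, hφ, -, -, hdec⟩ := hL2 q (locSub q g U) hV
  obtain ⟨k, u, -, -, -, hk⟩ := hdec (locPushMul q g a) hav
  obtain ⟨hin, hfr⟩ := hL4 q m hqm
  -- the character is unramified
  have hunr : ∀ τ : ↥(locSub q g U),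
      IsInertial q (τ : PadicAlgCl q ≃ₐ[ℚ_[q]] PadicAlgCl q) →
        (χ.comp (locHom q g U)) τ = 1 := by
    intro τ hτ
    show χ (locHom q g U τ) = 1
    apply chi_eq_one_of_cyc815 hcyc
    rw [locHom_coe, cyc815_conj]
    apply Units.ext
    have := cyc815_loc q m (τ : PadicAlgCl q ≃ₐ[ℚ_[q]] PadicAlgCl q) 1
      (fun ζ hζ => by rw [pow_one]; exact hin _ hτ ζ hζ)
    rw [this]
    simp
  refine ⟨f, k, locHom q g U ⟨φ, hφV⟩, hk, ?_, ?_⟩
  · rw [locHom_coe, cyc815_conj]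
    exact cyc815_loc q m φ (q ^ f) (fun ζ hζ => hfr φ f hφ ζ hζ)
  · rw [hloc, hL3 q (locSub q g U) hV n (χ.comp (locHom q g U)) hχv hunr f hf ⟨φ, hφV⟩ hφ
      (locPushMul q g a) hav k hk, coe_mul_div_eq_zsmul_iota815]
    rfl

end Fermat.Agent.S55.G.Rec.H815
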