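import Fermat.Agent.S55.G.Rec.SAH815.Away

/-!
# S55 / REC2 / STEP A (helper815), part 5: `CycloSumSpec` from the `ℓ`-adic half (SA3)

`EllHalfSpec815` is the statement (c)+(d) of blueprint §1b: if the cup class `a ∪ δχ` is trivial at
all places above `ℓ`, then `y = N_{K/ℚ}(a)` is `ℓ`-adically `± ℓ^k t (mod ℓ^{k+e})`, where `t` is
the cyclotomic value of some `σ ∈ U` with `χ σ = 1`.

`cycloSum_of_ellHalf815` : K1, L2, L3, L4, G1, G1b, G4, `EllHalfSpec815` ⊢ `CycloSumSpec I`.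
-/

set_option autoImplicit false

noncomputable section

namespace Fermat.Agent.S55.G.Rec.H815

open groupCohomology

local notation "Qb" => AlgebraicClosure ℚ
local notation "GQ" => (AlgebraicClosure ℚ ≃ₐ[ℚ] AlgebraicClosure ℚ)

/-- **(SA3)** the `ℓ`-adic half of STEP A. -/
def EllHalfSpec815 : Prop :=
  ∀ (U : Subgroup GQ), IsOpenQ U → ∀ (ℓ : ℕ) [Fact ℓ.Prime], ℓ ≠ 2 → ∀ (e : ℕ), 0 < e →
    ∀ (n : ℕ), Odd n → ∀ (χ : ↥U →* Multiplicative (ZMod n)),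
    IsLevelConstant₁ U.subtype χ → IsCycloChar U (ℓ ^ e) χ →
    ∀ a : Qbˣ, GFixed U a → (∀ g : GQ, locBr ℓ g U (gcc U n χ a) = 0) →
    ∀ y : ℚˣ, ((relNorm U a : Qbˣ) : Qb) = algebraMap ℚ Qb (y : ℚ) → EllHalfAt815 U ℓ e χ y

/-- **STEP A from its `ℓ`-adic half.** -/
theorem cycloSum_of_ellHalf815 (I : LocalInvSystem) (hK1 : CupLocSpec)
    (hL2 : LocalStructureSpec) (hL3 : UnramCupSpec I) (hL4 : CycloFrobSpec)
    (hG1 : OrbitNormSpec) (hG1b : ProductFormulaSpec) (hG4 : SupportFiniteSpec)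
    (hE : EllHalfSpec815) : CycloSumSpec I := by
  intro U hU ℓ _ hℓ2 e he n hn χ hχ hcyc a ha hloc R hR
  obtain ⟨y, hy⟩ := (hG1 U hU a ha).1
  exact sumInv_eq_zero815 I hK1 hL2 hL3 hL4 hG1b hG4 U hU ℓ e he n hn χ hχ hcyc a ha hloc y hy
    (hE U hU ℓ hℓ2 e he n hn χ hχ hcyc a ha hloc y hy) R hR

end Fermat.Agent.S55.G.Rec.H815
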